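/-
Fermat/Agent/MW/Inst49/SquareDiv.lean  (helper49, programme MW = S17, brick INST-2c)

**Theorem of the square and `[n]^*` formula in DIVISOR form.**

From helper82's abstract Picard calculus (`AV/Cube82`), instantiated with `Pic38` (`picCalc38`),
and the class map `PicDiv86.cl : CaDiv A →* Pic A` (kernel = principal divisors):

* `translate_comp`, `isIso_translate` : translations by `K`-points compose / are isomorphisms;
* `comp_translate`   : `x ≫ t_a = a + x` on `K`-points;
* `exists_div_square` : `t_a^* D · t_{-a}^* D = div h · (D · D)` for some rational function `h`;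
* `exists_div_of_pow_map_eq` : `([n]^*cl D)^δ = (cl D)^m  ⟹  ([n]^* D)^δ = div h · D^m`;
* `exists_div_cube`   : the same from Lemma D (`hnorm`) and symmetry of `D`.

These are the inputs `hsq`, `hcube` of `Inst73.sectionsOf_square`, `Inst73.sectionsOf_cube`.
-/
import Fermat.Agent.AV.Fact49.PicCalcInst
import Fermat.Agent.AV.Cube82.Square
import Fermat.Agent.AV.PicDiv86.Cl

set_option autoImplicit false
set_option linter.style.haveILetI false

noncomputable section

universe u

open CategoryTheory CategoryTheory.Limits AlgebraicGeometry AlgebraicGeometry.RelPicard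
  NeronModelInfra GoodReductionJacobian

namespace Fermat.Agent.MW.Inst49.SquareDiv

open Fermat.Agent.AV Fermat.Agent.AV.Cube82 Fermat.Agent.AV.PicDiv86
  Fermat.Agent.AV.Fact49.PicCalcInst Fermat.Agent.AV.Curv33

variable {K : Type u} [Field K] {A : Scheme.{u}}
  {f : A ⟶ Spec (CommRingCat.of K)} (G : RelativeGroupLaw K f)

/-- The `A`-valued point `a + id` underlying the translation by `a`. -/
def translatePt (a : SchemeHomOver (𝟙 (Spec (CommRingCat.of K))) f) : SchemeHomOver f f :=
  G.mul f (constPt f a) RelativeGroupLaw.idPoint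

theorem translatePt_coe (a : SchemeHomOver (𝟙 (Spec (CommRingCat.of K))) f) :
    (translatePt G a).1 = translate G a := rfl

theorem translate_over (a : SchemeHomOver (𝟙 (Spec (CommRingCat.of K))) f) :
    translate G a ≫ f = f := (translatePt G a).2

/-- On `T`-valued points, the translation by `a` is `y ↦ a + y`. -/
theorem comp_translate {T : Scheme.{u}} (t : T ⟶ Spec (CommRingCat.of K))
    (a : SchemeHomOver (𝟙 (Spec (CommRingCat.of K))) f) (y : SchemeHomOver t f) :
    y.1 ≫ translate G a = (G.mul t (constPt t a) y).1 := by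
  have h := G.mul_natural f t y.1 y.2 (constPt f a) RelativeGroupLaw.idPoint
  have h1 : schemeHomOverComp y.1 y.2 (constPt f a) = constPt t a := by
    apply Subtype.ext
    show y.1 ≫ (f ≫ a.1) = t ≫ a.1
    rw [← Category.assoc, y.2]
  have h2 : schemeHomOverComp y.1 y.2 (RelativeGroupLaw.idPoint (f := f)) = y :=
    Subtype.ext (Category.comp_id _)
  rw [h1, h2] at h
  exact congrArg Subtype.val h

/-- On `K`-points, the translation by `a` is `x ↦ a + x`. -/
theorem comp_translate_pt (a x : SchemeHomOver (𝟙 (Spec (CommRingCat.of K))) f) :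
    x.1 ≫ translate G a = (G.mul (𝟙 _) a x).1 := by
  rw [comp_translate G (𝟙 _) a x]
  have : constPt (𝟙 (Spec (CommRingCat.of K))) a = a := Subtype.ext (Category.id_comp _)
  rw [this]

/-- Translations compose: `t_b` followed by `t_a` is `t_{a+b}`. -/
theorem translate_comp (a b : SchemeHomOver (𝟙 (Spec (CommRingCat.of K))) f) :
    translate G b ≫ translate G a = translate G (G.mul (𝟙 _) a b) := by
  have h := comp_translate G f a (translatePt G b)
  rw [translatePt_coe] at h
  rw [h]
  unfold translatePt
  rw [← G.mul_assoc, ← constPt_mul]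
  rfl

theorem translate_inv_comp (a : SchemeHomOver (𝟙 (Spec (CommRingCat.of K))) f) :
    translate G (G.inv (𝟙 _) a) ≫ translate G a = 𝟙 A := by
  rw [translate_comp, G.mul_inv_cancel, translate_one]

theorem translate_comp_inv (a : SchemeHomOver (𝟙 (Spec (CommRingCat.of K))) f) :
    translate G a ≫ translate G (G.inv (𝟙 _) a) = 𝟙 A := by
  rw [translate_comp, G.inv_mul_cancel, translate_one]

instance isIso_translate (a : SchemeHomOver (𝟙 (Spec (CommRingCat.of K))) f) :
    IsIso (translate G a) :=
  ⟨⟨translate G (G.inv (𝟙 _) a), translate_comp_inv G a, translate_inv_comp G a⟩⟩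

instance isDominant_translate (a : SchemeHomOver (𝟙 (Spec (CommRingCat.of K))) f) :
    IsDominant (translate G a) := inferInstance

/-! ### Divisor forms -/

section Divisors

variable [IsIntegral A] (hc : G.IsCommutative)

/-- **Theorem of the square, divisor form**: `t_a^* D · t_{-a}^* D = div h · (D · D)`. -/
theorem exists_div_square (D : CaDiv A) (a : SchemeHomOver (𝟙 (Spec (CommRingCat.of K))) f)
    (ha : InS picCalc38 G hc (cl D) (𝟙 _) a) :
    ∃ h : A.functionFieldˣ,
      CaDiv.pullback (translate G a) D * CaDiv.pullback (translate G (G.inv (𝟙 _) a)) D =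
        CaDiv.div h * (D * D) := by
  apply cl_eq_cl_iff.1
  rw [map_mul, map_mul, ← map_cl, ← map_cl]
  have h := translate_mul_translate_inv picCalc38 G hc (cl D) a ha
  exact h.trans (pow_two (cl D))

/-- Class identity `([n]^* cl D)^δ = (cl D)^m` ⟹ divisor identity up to a principal divisor. -/
theorem exists_div_of_pow_map_eq (D : CaDiv A) (g : A ⟶ A) [IsDominant g] (δ m : ℕ)
    (h : Pic38.Pic.map g (cl D) ^ δ = cl D ^ m) :
    ∃ h : A.functionFieldˣ, CaDiv.pullback g D ^ δ = CaDiv.div h * D ^ m := by
  apply cl_eq_cl_iff.1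
  rw [map_pow, map_pow, ← map_cl]
  exact h

end Divisors

section Cube

variable [IsIntegral A] (hc : G.IsCommutative)
  [IsAlgClosed K] [IsProper f] [IsIntegral (pullback f f)]
  (l : List (CurveTo f (G.one (𝟙 (Spec (CommRingCat.of K))))))
  (hrep : ∀ X ∈ l, ∃ (D : RelativePic0Designation K X.c)
      (_ : RepresentsRelSubPic X.c X.ε (algEquivZeroCut X.c X.ε) D),
      IsSeparated D.toBase ∧ LocallyOfFiniteType D.toBase)

include hc hrep in
/-- **`[n]^* D` up to torsion, divisor form**: for a symmetric divisor `D`, if classes killed by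
the sum map are `δ`-torsion, then `([n]^* D)^δ = div h · D^(δ n²)`. -/
theorem exists_div_cube (D : CaDiv A) (δ : ℕ)
    (hnorm : ∀ M : Pic38.Pic A, Pic38.Pic.map (sumMap G l) M = 1 → M ^ δ = 1)
    [IsDominant (G.inv f RelativeGroupLaw.idPoint).1]
    (hsym : CaDiv.pullback (G.inv f RelativeGroupLaw.idPoint).1 D = D)
    (n : ℕ) [IsDominant (G.schemeNsmul n)] :
    ∃ h : A.functionFieldˣ,
      CaDiv.pullback (G.schemeNsmul n) D ^ δ = CaDiv.div h * D ^ (δ * n ^ 2) := by
  apply exists_div_of_pow_map_eq
  have hsym' : picCalc38.map (G.inv f RelativeGroupLaw.idPoint).1 (cl D) = cl D := by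
    show Pic38.Pic.map _ (cl D) = cl D
    rw [map_cl, hsym]
  exact pow_map_schemeNsmul picCalc38 G hc (cl D) l hrep δ hnorm hsym' n

include hc hrep in
/-- The case `n = 2` in the shape of `Inst73.sectionsOf_cube` (`m = 4 δ`). -/
theorem exists_div_cube_two (D : CaDiv A) (δ : ℕ)
    (hnorm : ∀ M : Pic38.Pic A, Pic38.Pic.map (sumMap G l) M = 1 → M ^ δ = 1)
    [IsDominant (G.inv f RelativeGroupLaw.idPoint).1]
    (hsym : CaDiv.pullback (G.inv f RelativeGroupLaw.idPoint).1 D = D)
    [IsDominant (G.schemeNsmul 2)] :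
    ∃ h : A.functionFieldˣ,
      CaDiv.pullback (G.schemeNsmul 2) D ^ δ = CaDiv.div h * D ^ (4 * δ) := by
  obtain ⟨h, hh⟩ := exists_div_cube G hc l hrep D δ hnorm hsym 2
  refine ⟨h, ?_⟩
  rw [hh]
  congr 2
  ring

end Cube

end Fermat.Agent.MW.Inst49.SquareDiv
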