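/-
Fermat/Agent/MW/Inst49/Cover.lean  (helper49, programme MW = S17, brick INST-2b, geometric half)

**Base-point-freeness of `2D` on a commutative group variety.**

Setting: `K` algebraically closed, `f : A ⟶ Spec K` locally of finite type with a commutative
group law `G`, `A` integral and quasi-compact, `D` an effective Cartier divisor on `A` satisfying the
theorem of the square on `K`-points (`InS`).  Then there is a finite family of rational functions
generating `O(D · D)` (`Inst73.Generates`):  for every closed point `x` there is a `K`-point `a`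
with `x + a ∉ Supp D` and `x - a ∉ Supp D`, so that the effective divisor
`E_a = t_a^* D · t_{-a}^* D = div h_a · (D · D)` misses `x`; closed points suffice because `A` is a
Jacobson space; conclude by `Inst73.exists_generates_of_cover`.
-/
import Fermat.Agent.MW.Inst49.SquareDiv
import Fermat.Agent.MW.Inst73.BasePointFree
import Fermat.Agent.AV.ClosedPts31

set_option autoImplicit false
set_option linter.style.haveILetI false

noncomputable section

universe u

open CategoryTheory CategoryTheory.Limits AlgebraicGeometry NeronModelInfra GoodReductionJacobian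

namespace Fermat.Agent.MW.Inst49.Cover

open Fermat.Agent.AV Fermat.Agent.AV.Cube82 Fermat.Agent.AV.PicDiv86
  Fermat.Agent.AV.Fact49.PicCalcInst Fermat.Agent.MW.Inst49.SquareDiv Fermat.Agent.MW.Inst73

variable {K : Type u} [Field K] {A : Scheme.{u}}
  {f : A ⟶ Spec (CommRingCat.of K)} (G : RelativeGroupLaw K f)

/-- The topological point underlying a `K`-point. -/
def pt (x : SchemeHomOver (𝟙 (Spec (CommRingCat.of K))) f) : A :=
  x.1 (IsLocalRing.closedPoint K)

theorem translate_pt (a x : SchemeHomOver (𝟙 (Spec (CommRingCat.of K))) f) :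
    translate G a (pt x) = pt (G.mul (𝟙 _) a x) := by
  unfold pt
  rw [← comp_translate_pt G a x]
  rfl

/-- The support of a Cartier divisor does not contain the generic point. -/
theorem genericPoint_notMem_support [IsIntegral A] (D : CaDiv A) :
    genericPoint A ∉ D.support := by
  obtain ⟨g, hg⟩ := D.exists_isLocalEq (genericPoint A)
  rw [CaDiv.notMem_support_iff_of_isLocalEq hg, mem_stalkUnits_iff]
  have hall : ∀ b : A.functionField, b ∈ stalkSubring A (genericPoint A) := by
    intro b
    refine ⟨b, ?_⟩
    show (A.presheaf.stalkSpecializes _).hom b = b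
    rw [A.presheaf.stalkSpecializes_refl]
    rfl
  exact ⟨hall _, hall _⟩

section Main

variable [IsAlgClosed K] [IsIntegral A] [LocallyOfFiniteType f] (hc : G.IsCommutative)

include hc in
/-- For a nonempty open `U` and a `K`-point `x` there is a `K`-point `a` with `a + x ∈ U` and
`-a + x ∈ U`. -/
theorem exists_pt_add_mem_sub_mem (U : A.Opens) (hU : (U : Set A).Nonempty)
    (x : SchemeHomOver (𝟙 (Spec (CommRingCat.of K))) f) :
    ∃ a : SchemeHomOver (𝟙 (Spec (CommRingCat.of K))) f,
      pt (G.mul (𝟙 _) a x) ∈ U ∧ pt (G.mul (𝟙 _) (G.inv (𝟙 _) a) x) ∈ U := by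
  letI := tptCommGroup G hc (𝟙 (Spec (CommRingCat.of K)))
  have hJ : JacobsonSpace A := LocallyOfFiniteType.jacobsonSpace f
  -- a `K`-point `u` of `U`
  obtain ⟨p, hpU, hp⟩ := nonempty_inter_closedPoints hU U.isOpen.isLocallyClosed
  obtain ⟨u0, hu0, hu0p⟩ := ClosedPts31.exists_Kpoint_of_isClosed f p hp
  let u : SchemeHomOver (𝟙 (Spec (CommRingCat.of K))) f := ⟨u0, hu0⟩
  have huU : pt u ∈ U := by
    show u0 (IsLocalRing.closedPoint K) ∈ U
    rw [hu0p]; exact hpU
  -- the two open sets `{a | x + a ∈ U}` and `{a | x - a ∈ U}`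
  let ι : A ⟶ A := (G.inv f RelativeGroupLaw.idPoint).1
  have hι : ∀ y : SchemeHomOver (𝟙 (Spec (CommRingCat.of K))) f, ι (pt y) = pt (G.inv (𝟙 _) y) := by
    intro y
    have h := inv_coe G hc (𝟙 _) y
    unfold pt
    rw [h]
    rfl
  let W₁ : Set A := (translate G x) ⁻¹' (U : Set A)
  let W₂ : Set A := (ι ≫ translate G x) ⁻¹' (U : Set A)
  have hW₁ : IsOpen W₁ := U.isOpen.preimage (translate G x).continuous
  have hW₂ : IsOpen W₂ := U.isOpen.preimage (ι ≫ translate G x).continuous
  have hne₁ : W₁.Nonempty := by
    refine ⟨pt (G.mul (𝟙 _) (G.inv (𝟙 _) x) u), ?_⟩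
    show translate G x (pt _) ∈ U
    rw [translate_pt]
    have : G.mul (𝟙 _) x (G.mul (𝟙 _) (G.inv (𝟙 _) x) u) = u := by
      show x * (x⁻¹ * u) = u
      group
    rw [this]; exact huU
  have hne₂ : W₂.Nonempty := by
    refine ⟨pt (G.mul (𝟙 _) (G.inv (𝟙 _) u) x), ?_⟩
    show (ι ≫ translate G x) (pt _) ∈ U
    have e : (ι ≫ translate G x) (pt (G.mul (𝟙 _) (G.inv (𝟙 _) u) x)) =
        translate G x (ι (pt (G.mul (𝟙 _) (G.inv (𝟙 _) u) x))) := rfl
    rw [e, hι, translate_pt]
    have : G.mul (𝟙 _) x (G.inv (𝟙 _) (G.mul (𝟙 _) (G.inv (𝟙 _) u) x)) = u := by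
      show x * (u⁻¹ * x)⁻¹ = u
      group
    rw [this]; exact huU
  -- they meet, by irreducibility, in a closed point
  have hirr : IsPreirreducible (Set.univ : Set A) :=
    (IrreducibleSpace.isIrreducible_univ A).isPreirreducible
  obtain ⟨w, -, hw⟩ := hirr W₁ W₂ hW₁ hW₂ (by simpa using hne₁) (by simpa using hne₂)
  have hW : (W₁ ∩ W₂).Nonempty := ⟨w, hw⟩
  obtain ⟨q, hqW, hq⟩ := nonempty_inter_closedPoints hW (hW₁.inter hW₂).isLocallyClosed
  obtain ⟨a0, ha0, ha0q⟩ := ClosedPts31.exists_Kpoint_of_isClosed f q hq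
  let a : SchemeHomOver (𝟙 (Spec (CommRingCat.of K))) f := ⟨a0, ha0⟩
  have haq : pt a = q := ha0q
  refine ⟨a, ?_, ?_⟩
  · have h1 : translate G x (pt a) ∈ U := by rw [haq]; exact hqW.1
    rw [translate_pt] at h1
    rwa [hc (𝟙 _) a x]
  · have h2 : (ι ≫ translate G x) (pt a) ∈ U := by rw [haq]; exact hqW.2
    have e : (ι ≫ translate G x) (pt a) = translate G x (ι (pt a)) := rfl
    rw [e, hι, translate_pt] at h2
    rwa [hc (𝟙 _) (G.inv (𝟙 _) a) x]

include hc in
/-- **Covering by translates, from the divisor form of the theorem of the square up to torsion.**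
If `D` is effective and `(t_a^* D · t_{-a}^* D)^δ = div h_a · (D · D)^δ` for every `K`-point `a`,
every point of `A` lies outside the support of an effective divisor linearly equivalent to
`(D · D)^δ`. -/
theorem exists_effective_linEquiv_notMem_of_div (D : CaDiv A) (hD : D.IsEffective) (δ : ℕ)
    (hlin : ∀ a : SchemeHomOver (𝟙 (Spec (CommRingCat.of K))) f, ∃ h : A.functionFieldˣ,
      (CaDiv.pullback (translate G a) D * CaDiv.pullback (translate G (G.inv (𝟙 _) a)) D) ^ δ =
        CaDiv.div h * (D * D) ^ δ)
    (y : A) :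
    ∃ (E : CaDiv A) (h : A.functionFieldˣ),
      E.IsEffective ∧ E = CaDiv.div h * (D * D) ^ δ ∧ y ∉ E.support := by
  classical
  have hJ : JacobsonSpace A := LocallyOfFiniteType.jacobsonSpace f
  -- the divisors `E_a`
  let E : SchemeHomOver (𝟙 (Spec (CommRingCat.of K))) f → CaDiv A := fun a =>
    (CaDiv.pullback (translate G a) D * CaDiv.pullback (translate G (G.inv (𝟙 _) a)) D) ^ δ
  have hE : ∀ a, (E a).IsEffective := fun a => ((hD.pullback).mul (hD.pullback)).pow δ
  have hsupp : ∀ a, (E a).support ⊆
      (translate G a) ⁻¹' D.support ∪ (translate G (G.inv (𝟙 _) a)) ⁻¹' D.support := by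
    intro a
    refine (CaDiv.support_pow_subset _ δ).trans
      ((CaDiv.support_mul_subset _ _).trans (Set.union_subset_union ?_ ?_))
    · exact CaDiv.support_pullback_subset _ D
    · exact CaDiv.support_pullback_subset _ D
  -- the complement of the support of `D`
  let U : A.Opens := ⟨(D.support)ᶜ, (CaDiv.isClosed_support D).isOpen_compl⟩
  have hU : (U : Set A).Nonempty := ⟨genericPoint A, genericPoint_notMem_support D⟩
  -- closed points are covered
  have hclosed : ∀ x : SchemeHomOver (𝟙 (Spec (CommRingCat.of K))) f,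
      ∃ a, pt x ∉ (E a).support := by
    intro x
    obtain ⟨a, h1, h2⟩ := exists_pt_add_mem_sub_mem G hc U hU x
    refine ⟨a, fun hmem => ?_⟩
    rcases hsupp a hmem with h | h
    · have : translate G a (pt x) ∈ D.support := h
      rw [translate_pt] at this
      exact h1 this
    · have : translate G (G.inv (𝟙 _) a) (pt x) ∈ D.support := h
      rw [translate_pt] at this
      exact h2 this
  -- hence all points are covered
  by_contra hcon
  have hy : ∀ a, y ∈ (E a).support := by
    intro a
    by_contra hya
    obtain ⟨h, hh⟩ := hlin a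
    exact hcon ⟨E a, h, hE a, hh, hya⟩
  let S : Set A := ⋂ a, (E a).support
  have hSclosed : IsClosed S := isClosed_iInter fun a => CaDiv.isClosed_support (E a)
  have hSne : S.Nonempty := ⟨y, Set.mem_iInter.2 hy⟩
  obtain ⟨p, hpS, hp⟩ := nonempty_inter_closedPoints hSne hSclosed.isLocallyClosed
  obtain ⟨x0, hx0, hx0p⟩ := ClosedPts31.exists_Kpoint_of_isClosed f p hp
  obtain ⟨a, ha⟩ := hclosed ⟨x0, hx0⟩
  apply ha
  have : pt (⟨x0, hx0⟩ : SchemeHomOver (𝟙 (Spec (CommRingCat.of K))) f) = p := hx0p
  rw [this]
  exact Set.mem_iInter.1 hpS a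

include hc in
/-- **INST-2b, torsion form**: if `(t_a^* D · t_{-a}^* D)^δ = div h_a · (D · D)^δ` for all
`K`-points `a`, then `O((D · D)^δ)` is generated by finitely many rational functions. -/
theorem exists_generates_sq_pow_of_div [CompactSpace A] (D : CaDiv A) (hD : D.IsEffective)
    (δ : ℕ)
    (hlin : ∀ a : SchemeHomOver (𝟙 (Spec (CommRingCat.of K))) f, ∃ h : A.functionFieldˣ,
      (CaDiv.pullback (translate G a) D * CaDiv.pullback (translate G (G.inv (𝟙 _) a)) D) ^ δ =
        CaDiv.div h * (D * D) ^ δ) :
    ∃ (n : ℕ) (s : Fin n → A.functionField), Generates s ((D * D) ^ δ) :=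
  exists_generates_of_cover ((D * D) ^ δ)
    (exists_effective_linEquiv_notMem_of_div G hc D hD δ hlin)

include hc in
/-- **INST-2b, exact form**: if `t_a^* D · t_{-a}^* D = div h_a · (D · D)` for all `K`-points `a`,
then `O(D · D)` is generated by finitely many rational functions. -/
theorem exists_generates_sq_of_div [CompactSpace A] (D : CaDiv A) (hD : D.IsEffective)
    (hlin : ∀ a : SchemeHomOver (𝟙 (Spec (CommRingCat.of K))) f, ∃ h : A.functionFieldˣ,
      CaDiv.pullback (translate G a) D * CaDiv.pullback (translate G (G.inv (𝟙 _) a)) D =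
        CaDiv.div h * (D * D)) :
    ∃ (n : ℕ) (s : Fin n → A.functionField), Generates s (D * D) := by
  have h1 := exists_generates_sq_pow_of_div G hc D hD 1
    (fun a => by simpa only [pow_one] using hlin a)
  simpa only [pow_one] using h1

include hc in
/-- **Covering by translates.**  If `D` is effective and satisfies the theorem of the square, every
point of `A` lies outside the support of an effective divisor linearly equivalent to `D · D`. -/
theorem exists_effective_linEquiv_notMem (D : CaDiv A) (hD : D.IsEffective)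
    (hS : ∀ a : SchemeHomOver (𝟙 (Spec (CommRingCat.of K))) f, InS picCalc38 G hc (cl D) (𝟙 _) a)
    (y : A) :
    ∃ (E : CaDiv A) (h : A.functionFieldˣ),
      E.IsEffective ∧ E = CaDiv.div h * (D * D) ∧ y ∉ E.support := by
  have h1 := exists_effective_linEquiv_notMem_of_div G hc D hD 1
    (fun a => by simpa only [pow_one] using exists_div_square G hc D a (hS a)) y
  simpa only [pow_one] using h1

include hc in
/-- **INST-2b**: on a quasi-compact commutative group variety, for an effective divisor `D`
satisfying the theorem of the square, `O(D · D)` is generated by finitely many rational functions. -/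
theorem exists_generates_sq [CompactSpace A] (D : CaDiv A) (hD : D.IsEffective)
    (hS : ∀ a : SchemeHomOver (𝟙 (Spec (CommRingCat.of K))) f,
      InS picCalc38 G hc (cl D) (𝟙 _) a) :
    ∃ (n : ℕ) (s : Fin n → A.functionField), Generates s (D * D) :=
  exists_generates_of_cover (D * D) (exists_effective_linEquiv_notMem G hc D hD hS)

end Main

end Fermat.Agent.MW.Inst49.Cover
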