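/-
Fermat/Agent/MW/Inst49/Family.lean  (helper49, programme MW = S17, brick INST-2b, wrapper)

**The symmetric divisor and its generating family on a commutative group variety.**

`K` algebraically closed, `f : A ⟶ Spec K` smooth, `A` integral separated quasi-compact,
`G` a commutative group law, `ι = [-1]`.  If the theorem of the square holds in divisor form up to
`δ`-torsion for every effective divisor, there are an `ι`-stable nonempty affine open `U`, an
effective Cartier divisor `D` with `Supp D = A ∖ U` and `ι^* D = D`, and a finite family of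
rational functions generating `O((D · D)^δ)`.
-/
import Fermat.Agent.MW.Inst49.Cover
import Fermat.Agent.AV.Fact49.SymmetricDiv

set_option autoImplicit false
set_option linter.style.haveILetI false

noncomputable section

universe u

open CategoryTheory CategoryTheory.Limits AlgebraicGeometry NeronModelInfra GoodReductionJacobian

namespace Fermat.Agent.MW.Inst49.Family

open Fermat.Agent.AV Fermat.Agent.AV.Cube82 Fermat.Agent.AV.PicDiv86
  Fermat.Agent.MW.Inst49.SquareDiv Fermat.Agent.MW.Inst49.Cover Fermat.Agent.MW.Inst73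

variable {K : Type u} [Field K] {A : Scheme.{u}}
  {f : A ⟶ Spec (CommRingCat.of K)} (G : RelativeGroupLaw K f)

/-- The inversion morphism `[-1] : A ⟶ A`. -/
def negMor : A ⟶ A := (G.inv f RelativeGroupLaw.idPoint).1

theorem negMor_over : negMor G ≫ f = f := (G.inv f RelativeGroupLaw.idPoint).2

/-- `[-1]` is an involution. -/
theorem negMor_comp_negMor (hc : G.IsCommutative) : negMor G ≫ negMor G = 𝟙 A := by
  letI := tptCommGroup G hc f
  have h := inv_coe G hc f (G.inv f RelativeGroupLaw.idPoint)
  have h2 : G.inv f (G.inv f RelativeGroupLaw.idPoint) = RelativeGroupLaw.idPoint :=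
    inv_inv (RelativeGroupLaw.idPoint (f := f))
  rw [h2] at h
  exact h.symm

/-- On points, `[-1]` is the inverse. -/
theorem comp_negMor (hc : G.IsCommutative) {T : Scheme.{u}} (t : T ⟶ Spec (CommRingCat.of K))
    (x : SchemeHomOver t f) : x.1 ≫ negMor G = (G.inv t x).1 :=
  (inv_coe G hc t x).symm

variable [IsAlgClosed K] [Smooth f] [IsIntegral A] [A.IsSeparated] [CompactSpace A]

/-- **The symmetric divisor and its generating family.** -/
theorem exists_symmetric_generates (hc : G.IsCommutative) (δ : ℕ)
    (hlin : ∀ D : CaDiv A, D.IsEffective →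
      ∀ a : SchemeHomOver (𝟙 (Spec (CommRingCat.of K))) f, ∃ h : A.functionFieldˣ,
        (CaDiv.pullback (translate G a) D * CaDiv.pullback (translate G (G.inv (𝟙 _) a)) D) ^ δ =
          CaDiv.div h * (D * D) ^ δ) :
    ∃ (_ : IsDominant (negMor G)) (U : A.Opens) (D : CaDiv A) (n : ℕ)
      (s : Fin n → A.functionField),
      IsAffineOpen U ∧ Nonempty U ∧ negMor G ⁻¹ᵁ U = U ∧ D.IsEffective ∧
        D.support = (U : Set A)ᶜ ∧ CaDiv.pullback (negMor G) D = D ∧
        Generates s ((D * D) ^ δ) := by
  obtain ⟨hdom, U, D, hU, hne, hιU, hD, hsupp, hsym⟩ :=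
    Fact49.SymmetricDiv.exists_symmetric_effective_caDiv f (negMor G) (negMor_comp_negMor G hc)
  obtain ⟨n, s, hs⟩ := exists_generates_sq_pow_of_div G hc D hD δ (hlin D hD)
  exact ⟨hdom, U, D, n, s, hU, hne, hιU, hD, hsupp, hsym, hs⟩

end Fermat.Agent.MW.Inst49.Family
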