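/-
Fermat/Agent/MW/Inst49/InSJ.lean  (helper49, programme MW = S17, hedge for part (a) of
`MW.SquareCubeInput`)

**The functorial theorem of the square at every rational point.**

* `hrep_all`          : S25 gives the representability hypothesis `hrep` of `AV/Cube82` for every
                        list of pointed curves;
* `inS_of_isDominant` : if the sum map of a list of pointed curves through the origin is dominant,
                        every `K`-point of `A` satisfies `InS` for every class `ℓ`;
* `inS_of_curvStatement` : the same from `Curv33.CurvStatement`;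
* `inS_J`             : the case of the Jacobian of a model curve (Jacobi inversion,
                        `F5_6.JacobiCurv.curvStatement_genus`) — part (a) of `MW.SquareCubeInput`.
-/
import Fermat.Agent.AV.Fact49.PicCalcInst
import Fermat.Agent.AV.Cube82.Square
import Fermat.Agent.AV.CCube32.CurveCube
import Fermat.Agent.AV.ClosedPtsCurv31
import Fermat.Agent.AV.Var81.Wrap
import Fermat.Agent.AV.F5_6.JacobiCurv
import Fermat.Agent.MW.Inst7.JGroup

set_option autoImplicit false
set_option linter.unusedSectionVars false
set_option linter.style.haveILetI false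

noncomputable section

universe u

open CategoryTheory CategoryTheory.Limits AlgebraicGeometry AlgebraicGeometry.RelPicard
  NeronModelInfra GoodReductionJacobian AlgebraicCurve

namespace Fermat.Agent.MW.Inst49.InSJ

open Fermat.Agent.AV Fermat.Agent.AV.Cube82 Fermat.Agent.AV.Curv33
  Fermat.Agent.AV.Fact49.PicCalcInst

section Generic

variable {K : Type u} [Field K] [IsAlgClosed K] {A : Scheme.{u}}
  {f : A ⟶ Spec (CommRingCat.of K)}

/-- S25: the Picard functor of every pointed curve of a list is representable. -/
theorem hrep_all {e : SchemeHomOver (𝟙 (Spec (CommRingCat.of K))) f} (l : List (CurveTo f e)) :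
    ∀ X ∈ l, ∃ (D : RelativePic0Designation K X.c)
      (_ : RepresentsRelSubPic X.c X.ε (algEquivZeroCut X.c X.ε) D),
      IsSeparated D.toBase ∧ LocallyOfFiniteType D.toBase := by
  intro X _
  haveI := X.isProper
  haveI := X.smooth
  haveI := X.isIntegral
  obtain ⟨D, ⟨h⟩, hp⟩ := CCube32.exists_jacobian X.c X.ε
  exact ⟨D, h, inferInstance, inferInstance⟩

variable (G : RelativeGroupLaw K f) (hc : G.IsCommutative)

/-- If the sum map of a list of pointed curves through the origin is dominant, every `K`-point
satisfies the functorial theorem of the square, for every class `ℓ`. -/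
theorem inS_of_isDominant [IsProper f] [IsIntegral (pullback f f)]
    (l : List (CurveTo f (G.one (𝟙 (Spec (CommRingCat.of K)))))) [IsDominant (sumMap G l)]
    (ℓ : Pic38.Pic A) (a : SchemeHomOver (𝟙 (Spec (CommRingCat.of K))) f) :
    InS picCalc38 G hc ℓ (𝟙 _) a := by
  obtain ⟨v, hv⟩ := ClosedPtsCurv31.exists_Kpoint_sumMap_eq G l a
  have h := inS_sumPt_point picCalc38 G hc ℓ l (hrep_all l) v
  rwa [hv] at h

/-- The same from the output of brick CURV / Jacobi inversion. -/
theorem inS_of_curvStatement [IsProper f] [IsIntegral (pullback f f)] {N : ℕ}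
    (hcurv : CurvStatement G N)
    (ℓ : Pic38.Pic A) (a : SchemeHomOver (𝟙 (Spec (CommRingCat.of K))) f) :
    InS picCalc38 G hc ℓ (𝟙 _) a := by
  obtain ⟨l, -, hdom⟩ := hcurv
  exact inS_of_isDominant G hc l ℓ a

end Generic

section Jacobian

open Fermat.Agent.Jac Fermat.Agent.Jac.FinalWiring41 Fermat.Agent.AV.F1Model15
  Fermat.Agent.AV.PicBridge84.SchemeSide Fermat.Agent.MW.Inst7.JGroup

variable {K F : Type u} [Field K] [Field F] [Algebra K F] [IsAlgClosed K] [IsCurveOver K F]
  (M : Model K F) {D : AffineDictionary M.cc} {D' : RelativePic0Designation K M.c}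
  (h : haveI := M.isIntegral; RepresentsRelSubPic M.c M.ε (cut41 D) D')
  [Smooth D'.toBase] [IsProper D'.toBase] [GeometricallyConnected D'.toBase]

/-- **Part (a) of `MW.SquareCubeInput`**: every rational point of the Jacobian of a model curve
satisfies the functorial theorem of the square, for every class `ℓ`. -/
theorem inS_J (ℓ : Pic38.Pic D'.P)
    (a : SchemeHomOver (𝟙 (Spec (CommRingCat.of K))) D'.toBase) :
    InS picCalc38 (lawJ M h) (lawJ_isCommutative M h) ℓ (𝟙 _) a := by
  haveI := M.isIntegral
  haveI := M.isProper
  haveI := M.smooth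
  haveI : IsIntegral D'.P := isIntegral M h
  haveI : IsIntegral (pullback D'.toBase D'.toBase) :=
    Var81.isIntegral_of_isPullback D'.toBase D'.toBase (IsPullback.of_hasPullback _ _)
  have hcurv : CurvStatement (law h) (Genus41.genus M.cc) :=
    F5_6.JacobiCurv.curvStatement_genus h
  exact inS_of_curvStatement (lawJ M h) (lawJ_isCommutative M h) hcurv ℓ a

end Jacobian

end Fermat.Agent.MW.Inst49.InSJ
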