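/-
Fermat/Agent/MW/Inst49/JFamily.lean  (helper49, programme MW = S17, bricks INST-2b + INST-2c)

**The FAMILY fields of `MW.GeomCore` (`s`, `gen`, `square`, `cube`) for a commutative group
variety**, with the two Picard-form inputs as hypotheses:

* `hS`    : the functorial theorem of the square at every `K`-point, for every class `ℓ`;
* `hcube` : `([2]^* ℓ)^δ = ℓ^(δ·2²)` for every symmetric class `ℓ` (`0 < δ`).

Output (`exists_geomFamily`): an `[-1]`-stable nonempty affine open `U`, a symmetric effective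
Cartier divisor `D` with `Supp D = A ∖ U` (`D = D₀ · D₀`), and a finite family `s` with `s 0 = 1`
generating `O(D)`, satisfying `gen`, `square` (with `d = 1`) and `cube` in exactly the shape of
`MW.GeomCore` (`transl a = translate G a`, `dbl = G.schemeNsmul 2`;
`HM73.ffMap φ h = PicDiv86.functionFieldMap φ` by `Inst73.ffMap_eq_functionFieldMap'`).
-/
import Fermat.Agent.MW.Inst49.Family

set_option autoImplicit false
set_option linter.style.haveILetI false

noncomputable section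

universe u

open CategoryTheory CategoryTheory.Limits AlgebraicGeometry NeronModelInfra GoodReductionJacobian

namespace Fermat.Agent.MW.Inst49.JFamily

open Fermat.Agent.AV Fermat.Agent.AV.Cube82 Fermat.Agent.AV.PicDiv86
  Fermat.Agent.AV.Fact49.PicCalcInst Fermat.Agent.MW.Inst49.SquareDiv
  Fermat.Agent.MW.Inst49.Cover Fermat.Agent.MW.Inst49.Family Fermat.Agent.MW.Inst73
  Fermat.Agent.MW.HM73

/-! ### Enlarging a generating family by the section `1` -/

section Cons

variable {X : Scheme.{u}} [IsIntegral X]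

/-- Adding a global section to a generating family keeps it generating. -/
theorem generates_cons {n : ℕ} {s : Fin n → X.functionField} {D : CaDiv X}
    (hs : Generates s D) {g : X.functionField} (hg : g ∈ D.H0) :
    Generates (Fin.cons g s : Fin (n + 1) → X.functionField) D := by
  refine ⟨fun i => ?_, fun x => ?_⟩
  · refine Fin.cases ?_ (fun j => ?_) i
    · simpa using hg
    · simpa using hs.1 j
  · obtain ⟨i, f, hf, hi, hinv⟩ := hs.2 x
    refine ⟨i.succ, f, hf, ?_, ?_⟩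
    · simpa using hi
    · simpa using hinv

end Cons

variable {K : Type u} [Field K] {A : Scheme.{u}}
  {f : A ⟶ Spec (CommRingCat.of K)} (G : RelativeGroupLaw K f)

variable [IsAlgClosed K] [Smooth f] [IsIntegral A] [A.IsSeparated] [CompactSpace A]

/-- **The family fields of `MW.GeomCore` for a commutative group variety**, exporting the
symmetric divisor `D₀` (the family generates `O(D₀ · D₀)`). -/
theorem exists_geomFamily_D0 (hc : G.IsCommutative)
    (hS : ∀ (ℓ : Pic38.Pic A) (a : SchemeHomOver (𝟙 (Spec (CommRingCat.of K))) f),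
      InS picCalc38 G hc ℓ (𝟙 _) a)
    [IsDominant (G.schemeNsmul 2)] (δ : ℕ) (hδ : 0 < δ)
    (hcube : ∀ ℓ : Pic38.Pic A, Pic38.Pic.map (negMor G) ℓ = ℓ →
      Pic38.Pic.map (G.schemeNsmul 2) ℓ ^ δ = ℓ ^ (δ * 2 ^ 2)) :
    ∃ (_ : IsDominant (negMor G)) (U : A.Opens) (D₀ : CaDiv A) (n : ℕ)
      (s : Fin (n + 1) → A.functionField),
      IsAffineOpen U ∧ Nonempty U ∧ negMor G ⁻¹ᵁ U = U ∧
      D₀.IsEffective ∧ D₀.support = (U : Set A)ᶜ ∧ CaDiv.pullback (negMor G) D₀ = D₀ ∧
      s 0 = 1 ∧ Generates s (D₀ * D₀) ∧ SectionsOf s s ∧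
      (∀ a : SchemeHomOver (𝟙 (Spec (CommRingCat.of K))) f,
        ∃ (d : ℕ) (φ : A.functionField), 0 < d ∧ φ ≠ 0 ∧
        SectionsOf (fun p : Fin (n + 1) × Fin (n + 1) =>
            (functionFieldMap (translate G a) (s p.1) *
              functionFieldMap (translate G (G.inv (𝟙 _) a)) (s p.2)) ^ d)
          (fun p : Fin (n + 1) × Fin (n + 1) => φ * (s p.1 * s p.2) ^ d) ∧
        SectionsOf (fun p : Fin (n + 1) × Fin (n + 1) => φ * (s p.1 * s p.2) ^ d)
          (fun p : Fin (n + 1) × Fin (n + 1) =>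
            (functionFieldMap (translate G a) (s p.1) *
              functionFieldMap (translate G (G.inv (𝟙 _) a)) (s p.2)) ^ d)) ∧
      ∃ (d : ℕ) (ψ : A.functionField), 0 < d ∧ ψ ≠ 0 ∧
        SectionsOf (fun i : Fin (n + 1) => functionFieldMap (G.schemeNsmul 2) (s i) ^ d)
          (fun i : Fin (n + 1) => ψ * s i ^ (4 * d)) ∧
        SectionsOf (fun i : Fin (n + 1) => ψ * s i ^ (4 * d))
          (fun i : Fin (n + 1) => functionFieldMap (G.schemeNsmul 2) (s i) ^ d) := by
  -- the symmetric divisor `D₀` with affine complement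
  obtain ⟨hdom, U, D₀, hU, hne, hιU, hD₀, hsupp₀, hsym₀⟩ :=
    Fact49.SymmetricDiv.exists_symmetric_effective_caDiv f (negMor G) (negMor_comp_negMor G hc)
  -- the family generating `O(D₀ · D₀)`
  obtain ⟨n, s', hs'⟩ := exists_generates_sq G hc D₀ hD₀ (fun a => hS (cl D₀) a)
  have hD : (D₀ * D₀).IsEffective := hD₀.mul hD₀
  have hs : Generates (Fin.cons 1 s' : Fin (n + 1) → A.functionField) (D₀ * D₀) :=
    generates_cons hs' (CaDiv.one_mem_H0 hD)
  have hsymD : CaDiv.pullback (negMor G) (D₀ * D₀) = D₀ * D₀ := by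
    rw [map_mul, hsym₀]
  refine ⟨hdom, U, D₀, n, Fin.cons 1 s', hU, hne, hιU, hD₀, hsupp₀, hsym₀, rfl, hs,
    hs.sectionsOf_self, fun a => ?_, ?_⟩
  · -- SQUARE, with `d = 1`
    obtain ⟨h, hh⟩ := exists_div_square G hc (D₀ * D₀) a (hS (cl (D₀ * D₀)) a)
    have hh1 : (CaDiv.pullback (translate G a) (D₀ * D₀) *
        CaDiv.pullback (translate G (G.inv (𝟙 _) a)) (D₀ * D₀)) ^ 1 =
        CaDiv.div h * ((D₀ * D₀) * (D₀ * D₀)) ^ 1 := by
      rw [pow_one, pow_one]; exact hh
    have key := sectionsOf_square_pow hs (translate G a) (translate G (G.inv (𝟙 _) a)) 1 h hh1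
    exact ⟨1, ((h⁻¹ : A.functionFieldˣ) : A.functionField), one_pos, Units.ne_zero _,
      key.1, key.2⟩
  · -- CUBE
    have hsymcl : Pic38.Pic.map (negMor G) (cl (D₀ * D₀)) = cl (D₀ * D₀) := by
      rw [map_cl, hsymD]
    have hpic : Pic38.Pic.map (G.schemeNsmul 2) (cl (D₀ * D₀)) ^ δ = cl (D₀ * D₀) ^ (4 * δ) := by
      rw [hcube _ hsymcl]
      congr 1
      ring
    obtain ⟨h, hh⟩ := exists_div_of_pow_map_eq (D₀ * D₀) (G.schemeNsmul 2) δ (4 * δ) hpic
    have key := sectionsOf_cube hs (G.schemeNsmul 2) δ (4 * δ) h hh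
    exact ⟨δ, ((h⁻¹ : A.functionFieldˣ) : A.functionField), hδ, Units.ne_zero _, key.1, key.2⟩

/-- **The family fields of `MW.GeomCore` for a commutative group variety**, exporting the divisor
`D = D₀ · D₀` generated by the family. -/
theorem exists_geomFamily (hc : G.IsCommutative)
    (hS : ∀ (ℓ : Pic38.Pic A) (a : SchemeHomOver (𝟙 (Spec (CommRingCat.of K))) f),
      InS picCalc38 G hc ℓ (𝟙 _) a)
    [IsDominant (G.schemeNsmul 2)] (δ : ℕ) (hδ : 0 < δ)
    (hcube : ∀ ℓ : Pic38.Pic A, Pic38.Pic.map (negMor G) ℓ = ℓ →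
      Pic38.Pic.map (G.schemeNsmul 2) ℓ ^ δ = ℓ ^ (δ * 2 ^ 2)) :
    ∃ (_ : IsDominant (negMor G)) (U : A.Opens) (D : CaDiv A) (n : ℕ)
      (s : Fin (n + 1) → A.functionField),
      IsAffineOpen U ∧ (U : Set A).Nonempty ∧ negMor G ⁻¹ᵁ U = U ∧
      D.IsEffective ∧ (U : Set A) = D.supportᶜ ∧ CaDiv.pullback (negMor G) D = D ∧
      s 0 = 1 ∧ Generates s D ∧ SectionsOf s s ∧
      (∀ a : SchemeHomOver (𝟙 (Spec (CommRingCat.of K))) f,
        ∃ (d : ℕ) (φ : A.functionField), 0 < d ∧ φ ≠ 0 ∧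
        SectionsOf (fun p : Fin (n + 1) × Fin (n + 1) =>
            (functionFieldMap (translate G a) (s p.1) *
              functionFieldMap (translate G (G.inv (𝟙 _) a)) (s p.2)) ^ d)
          (fun p : Fin (n + 1) × Fin (n + 1) => φ * (s p.1 * s p.2) ^ d) ∧
        SectionsOf (fun p : Fin (n + 1) × Fin (n + 1) => φ * (s p.1 * s p.2) ^ d)
          (fun p : Fin (n + 1) × Fin (n + 1) =>
            (functionFieldMap (translate G a) (s p.1) *
              functionFieldMap (translate G (G.inv (𝟙 _) a)) (s p.2)) ^ d)) ∧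
      ∃ (d : ℕ) (ψ : A.functionField), 0 < d ∧ ψ ≠ 0 ∧
        SectionsOf (fun i : Fin (n + 1) => functionFieldMap (G.schemeNsmul 2) (s i) ^ d)
          (fun i : Fin (n + 1) => ψ * s i ^ (4 * d)) ∧
        SectionsOf (fun i : Fin (n + 1) => ψ * s i ^ (4 * d))
          (fun i : Fin (n + 1) => functionFieldMap (G.schemeNsmul 2) (s i) ^ d) := by
  obtain ⟨hdom, U, D₀, n, s, hU, hne, hιU, hD₀, hsupp₀, hsym₀, hs0, hs, hgen, hsq, hcu⟩ :=
    exists_geomFamily_D0 G hc hS δ hδ hcube
  have hsuppD : (U : Set A) = (D₀ * D₀).supportᶜ := by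
    rw [Fact49.SymmetricDiv.support_mul_of_isEffective hD₀ hD₀, Set.union_self, hsupp₀, compl_compl]
  have hsymD : CaDiv.pullback (negMor G) (D₀ * D₀) = D₀ * D₀ := by
    rw [map_mul, hsym₀]
  obtain ⟨x⟩ := hne
  exact ⟨hdom, U, D₀ * D₀, n, s, hU, ⟨x.1, x.2⟩, hιU, hD₀.mul hD₀, hsuppD, hsymD, hs0, hs, hgen,
    hsq, hcu⟩

end Fermat.Agent.MW.Inst49.JFamily
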