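/-
Fermat/Agent/MW/Inst49/JFamilyProper.lean  (helper49, programme MW = S17)

`JFamily.exists_geomFamily_D0` with the hypotheses `[A.IsSeparated] [CompactSpace A]` replaced by
`[IsProper f]` (the shape available for a Jacobian / abelian variety).
-/
import Fermat.Agent.MW.Inst49.JFamily

set_option autoImplicit false
set_option linter.style.haveILetI false

noncomputable section

universe u

open CategoryTheory CategoryTheory.Limits AlgebraicGeometry NeronModelInfra GoodReductionJacobian

namespace Fermat.Agent.MW.Inst49.JFamily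

open Fermat.Agent.AV Fermat.Agent.AV.Cube82 Fermat.Agent.AV.PicDiv86
  Fermat.Agent.AV.Fact49.PicCalcInst Fermat.Agent.MW.Inst49.SquareDiv
  Fermat.Agent.MW.Inst49.Cover Fermat.Agent.MW.Inst49.Family Fermat.Agent.MW.Inst73
  Fermat.Agent.MW.HM73

variable {K : Type u} [Field K] {A : Scheme.{u}}
  {f : A ⟶ Spec (CommRingCat.of K)}

/-- A scheme separated over a field is separated. -/
theorem isSeparated_of_over_field (f : A ⟶ Spec (CommRingCat.of K)) [IsSeparated f] :
    A.IsSeparated := by
  have h1 : IsSeparated (f ≫ terminal.from (Spec (CommRingCat.of K))) := inferInstance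
  have h : f ≫ terminal.from (Spec (CommRingCat.of K)) = terminal.from A :=
    Limits.terminal.hom_ext _ _
  rw [h] at h1
  exact ⟨h1⟩

/-- A scheme quasi-compact over a field is quasi-compact. -/
theorem compactSpace_of_over_field (f : A ⟶ Spec (CommRingCat.of K)) [QuasiCompact f] :
    CompactSpace A :=
  QuasiCompact.compactSpace_of_compactSpace f

variable (G : RelativeGroupLaw K f) [IsAlgClosed K] [Smooth f] [IsProper f] [IsIntegral A]

/-- `exists_geomFamily_D0` for a smooth proper integral group variety. -/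
theorem exists_geomFamily_D0_of_isProper (hc : G.IsCommutative)
    (hS : ∀ (ℓ : Pic38.Pic A) (a : SchemeHomOver (𝟙 (Spec (CommRingCat.of K))) f),
      InS picCalc38 G hc ℓ (𝟙 _) a)
    [IsDominant (G.schemeNsmul 2)] (δ : ℕ) (hδ : 0 < δ)
    (hcube : ∀ ℓ : Pic38.Pic A, Pic38.Pic.map (negMor G) ℓ = ℓ →
      Pic38.Pic.map (G.schemeNsmul 2) ℓ ^ δ = ℓ ^ (δ * 2 ^ 2)) :
    ∃ (_ : IsDominant (negMor G)) (U : A.Opens) (D₀ : CaDiv A) (n : ℕ)
      (s : Fin (n + 1) → A.functionField),
      IsAffineOpen U ∧ Nonempty U ∧ negMor G ⁻¹ᵁ U = U ∧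
      D₀.IsEffective ∧ D₀.support = (U : Set A)ᶜ ∧ CaDiv.pullback (negMor G) D₀ = D₀ ∧
      s 0 = 1 ∧ Generates s (D₀ * D₀) ∧ SectionsOf s s ∧
      (∀ a : SchemeHomOver (𝟙 (Spec (CommRingCat.of K))) f,
        ∃ (d : ℕ) (φ : A.functionField), 0 < d ∧ φ ≠ 0 ∧
        SectionsOf (fun p : Fin (n + 1) × Fin (n + 1) =>
            (functionFieldMap (translate G a) (s p.1) *
              functionFieldMap (translate G (G.inv (𝟙 _) a)) (s p.2)) ^ d)
          (fun p : Fin (n + 1) × Fin (n + 1) => φ * (s p.1 * s p.2) ^ d) ∧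
        SectionsOf (fun p : Fin (n + 1) × Fin (n + 1) => φ * (s p.1 * s p.2) ^ d)
          (fun p : Fin (n + 1) × Fin (n + 1) =>
            (functionFieldMap (translate G a) (s p.1) *
              functionFieldMap (translate G (G.inv (𝟙 _) a)) (s p.2)) ^ d)) ∧
      ∃ (d : ℕ) (ψ : A.functionField), 0 < d ∧ ψ ≠ 0 ∧
        SectionsOf (fun i : Fin (n + 1) => functionFieldMap (G.schemeNsmul 2) (s i) ^ d)
          (fun i : Fin (n + 1) => ψ * s i ^ (4 * d)) ∧
        SectionsOf (fun i : Fin (n + 1) => ψ * s i ^ (4 * d))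
          (fun i : Fin (n + 1) => functionFieldMap (G.schemeNsmul 2) (s i) ^ d) := by
  haveI : A.IsSeparated := isSeparated_of_over_field f
  haveI : CompactSpace A := compactSpace_of_over_field f
  exact exists_geomFamily_D0 G hc hS δ hδ hcube

end Fermat.Agent.MW.Inst49.JFamily
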