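/-
Fermat/Agent/MW/Inst49/JFamilyJ.lean  (helper49, programme MW = S17)

**The FAMILY fields of `MW.GeomCore` for the Jacobian of a model curve**, in terms of helper7's
J-side group data (`MW/Inst7/JGroup.lean`: `transl M h a`, `dbl M h`, `neg M h`, `β M h`), with the
two Picard-form inputs `hS`, `hcube` as hypotheses (delivered by `MW/Inst96`).

`exists_family_J` : an affine open `U`, a symmetric effective divisor `D₀` with `Supp D₀ = J ∖ U`,
a family `s` with `s 0 = 1` generating `O(D₀ · D₀)`, and the fields `gen`, `square`, `cube`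
verbatim as in `MW.GeomCore` (`HM73.ffMap` along `transl M h a`, `transl M h (-a)`, `dbl M h`).
-/
import Fermat.Agent.MW.Inst49.JFamilyProper
import Fermat.Agent.MW.Inst7.JGroup

set_option autoImplicit false
set_option linter.unusedSectionVars false
set_option linter.style.haveILetI false

noncomputable section

universe u

open CategoryTheory CategoryTheory.Limits AlgebraicGeometry AlgebraicGeometry.RelPicard
  NeronModelInfra GoodReductionJacobian TensorProduct AlgebraicCurve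

namespace Fermat.Agent.MW.Inst49.JFamilyJ

open scoped Fermat.Agent.Jac.BaseChange75
open Fermat.Agent.Jac Fermat.Agent.Jac.FinalWiring41 Fermat.Agent.AV.F1Model15
  Fermat.Agent.AV.PicBridge84.SchemeSide Fermat.Agent.AV.PicBridge84.Iso
  Fermat.Agent.AV Fermat.Agent.AV.Cube82 Fermat.Agent.AV.PicDiv86
  Fermat.Agent.AV.Fact49.PicCalcInst Fermat.Agent.MW.HM73 Fermat.Agent.MW.Inst73
  Fermat.Agent.MW.Inst7.JGroup Fermat.Agent.MW.Inst49.Family Fermat.Agent.MW.Inst49.JFamily

variable {K F : Type u} [Field K] [Field F] [Algebra K F] [IsAlgClosed K] [IsCurveOver K F]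
  (M : Model K F) {D : AffineDictionary M.cc} {D' : RelativePic0Designation K M.c}
  (h : haveI := M.isIntegral; RepresentsRelSubPic M.c M.ε (cut41 D) D')
  [Smooth D'.toBase] [IsProper D'.toBase] [GeometricallyConnected D'.toBase]

/-- **The family fields of `MW.GeomCore` for the Jacobian.** -/
theorem exists_family_J (h2 : (2 : K) ≠ 0)
    (hS : ∀ (ℓ : Pic38.Pic D'.P)
      (a : SchemeHomOver (𝟙 (Spec (CommRingCat.of K))) D'.toBase),
      InS picCalc38 (lawJ M h) (lawJ_isCommutative M h) ℓ (𝟙 _) a)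
    (δ : ℕ) (hδ : 0 < δ)
    (hcube : ∀ ℓ : Pic38.Pic D'.P, Pic38.Pic.map (neg M h) ℓ = ℓ →
      Pic38.Pic.map (dbl M h) ℓ ^ δ = ℓ ^ (δ * 2 ^ 2)) :
    haveI := isIntegral M h
    ∃ (U : D'.P.Opens) (D₀ : CaDiv D'.P) (n : ℕ) (s : Fin (n + 1) → D'.P.functionField),
      IsAffineOpen U ∧ Nonempty U ∧ neg M h ⁻¹ᵁ U = U ∧
      D₀.IsEffective ∧ D₀.support = (U : Set D'.P)ᶜ ∧
      s 0 = 1 ∧ Generates s (D₀ * D₀) ∧ SectionsOf s s ∧
      (∀ a : Pic0 K F, ∃ (d : ℕ) (φ : D'.P.functionField), 0 < d ∧ φ ≠ 0 ∧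
        SectionsOf (fun p : Fin (n + 1) × Fin (n + 1) =>
            (ffMap (transl M h a) (transl_dom M h a) (s p.1) *
              ffMap (transl M h (-a)) (transl_dom M h (-a)) (s p.2)) ^ d)
          (fun p : Fin (n + 1) × Fin (n + 1) => φ * (s p.1 * s p.2) ^ d) ∧
        SectionsOf (fun p : Fin (n + 1) × Fin (n + 1) => φ * (s p.1 * s p.2) ^ d)
          (fun p : Fin (n + 1) × Fin (n + 1) =>
            (ffMap (transl M h a) (transl_dom M h a) (s p.1) *
              ffMap (transl M h (-a)) (transl_dom M h (-a)) (s p.2)) ^ d)) ∧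
      ∃ (d : ℕ) (ψ : D'.P.functionField), 0 < d ∧ ψ ≠ 0 ∧
        SectionsOf (fun i : Fin (n + 1) => ffMap (dbl M h) (dbl_dom M h h2) (s i) ^ d)
          (fun i : Fin (n + 1) => ψ * s i ^ (4 * d)) ∧
        SectionsOf (fun i : Fin (n + 1) => ψ * s i ^ (4 * d))
          (fun i : Fin (n + 1) => ffMap (dbl M h) (dbl_dom M h h2) (s i) ^ d) := by
  haveI := isIntegral M h
  haveI : IsDominant ((lawJ M h).schemeNsmul 2) := mulBy_dominant M h 2 (by exact_mod_cast h2)
  obtain ⟨hdom, U, D₀, n, s, hU, hne, hιU, hD₀, hsupp, -, hs0, hs, hgen, hsq, hcu⟩ :=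
    exists_geomFamily_D0_of_isProper (lawJ M h) (lawJ_isCommutative M h) hS δ hδ hcube
  have key : ∀ (g g' : D'.P ⟶ D'.P) (hg : g (genericPoint D'.P) = genericPoint D'.P)
      [IsDominant g'] (_ : g = g'), ffMap g hg = functionFieldMap g' := by
    intro g g' hg _ e
    subst e
    rfl
  refine ⟨U, D₀, n, s, hU, hne, hιU, hD₀, hsupp, hs0, hs, hgen, fun a => ?_, ?_⟩
  · obtain ⟨d, φ, hd, hφ, h1, h2'⟩ := hsq (β M h a)
    have e1 : transl M h a = translate (lawJ M h) (β M h a) := rfl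
    have e2 : transl M h (-a) =
        translate (lawJ M h) ((lawJ M h).inv (𝟙 _) (β M h a)) := by
      unfold transl; rw [β_neg']
    refine ⟨d, φ, hd, hφ, ?_, ?_⟩
    · rw [key _ _ (transl_dom M h a) e1, key _ _ (transl_dom M h (-a)) e2]
      exact h1
    · rw [key _ _ (transl_dom M h a) e1, key _ _ (transl_dom M h (-a)) e2]
      exact h2'
  · obtain ⟨d, ψ, hd, hψ, h1, h2'⟩ := hcu
    have e : dbl M h = (lawJ M h).schemeNsmul 2 := rfl
    refine ⟨d, ψ, hd, hψ, ?_, ?_⟩
    · rw [key _ _ (dbl_dom M h h2) e]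
      exact h1
    · rw [key _ _ (dbl_dom M h h2) e]
      exact h2'

end Fermat.Agent.MW.Inst49.JFamilyJ
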